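import Fermat.Agent.S27.FO.Framework

/-!
# Block FO: the Lefschetz principle for uniformly definable sentences
-/

set_option autoImplicit false

namespace Fermat.Agent.S27.FO

open FirstOrder FirstOrder.Language FirstOrder.Ring FirstOrder.Field

universe u

/-- Lefschetz principle. -/
theorem transfer {P : ∀ (k : Type u) [Field k], (Empty → k) → Prop} (h : UDef Empty P)
    (K : Type u) [Field K] [IsAlgClosed K] [CharZero K]
    (hinf : {p : Nat.Primes | ∃ (κ : Type u) (_ : Field κ), IsAlgClosed κ ∧ CharP κ p ∧
      P κ Empty.elim}.Infinite) : P K Empty.elim := by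
  obtain ⟨φ, hφ⟩ := h
  have key : ∀ (k : Type u) [Field k] [CompatibleRing k],
      (Sentence.Realize k (φ : Language.ring.Sentence)) ↔ P k Empty.elim := by
    intro k _ _
    have := hφ k (Empty.elim)
    rw [← this]
    unfold Sentence.Realize
    have e : (default : Empty → k) = Empty.elim := funext fun x => x.elim
    rw [e]
  let _ := compatibleRingOfRing K
  rw [← key K, (ACF_isComplete (Or.inr rfl)).realize_sentence_iff _ K,
    ACF_zero_realize_iff_infinite_ACF_prime_realize]
  refine hinf.mono ?_
  rintro p ⟨κ, _, hac, hch, hP⟩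
  let _ := compatibleRingOfRing κ
  show (Theory.ACF (p : ℕ)) ⊨ᵇ φ
  rw [← (ACF_isComplete (Or.inl p.2)).realize_sentence_iff _ κ, key κ]
  exact hP

end Fermat.Agent.S27.FO
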