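import Fermat.Agent.S27.FO.RepPred2
import Fermat.Agent.S27.FO.Transfer
import Fermat.Agent.S27.Model

/-!
# Block FO: `Count`, `Goal`, and the final statement `StmtFO`
-/

set_option autoImplicit false

namespace Fermat.Agent.S27.FO

universe u

variable {α : Type} {s : Shape}

theorem udef_count {c : ∀ (k : Type u) [Field k], (α → k) → Table s k} (hc : UTable α c) (n : ℕ) :
    UDef α (fun k _ v => Count s n (c k v)) := by
  unfold Count
  refine UDef.exists_reps ?_
  refine UDef.and ?_ (UDef.and ?_ ?_)
  · exact UDef.forall_fin fun i =>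
      (udef_isRep hc.weaken (urep_decs i) _).and (udef_tors hc.weaken (urep_decs i) _ _)
  · exact UDef.forall_fin fun i => UDef.forall_fin fun j => UDef.imp_const _
      (udef_equiv hc.weaken (urep_decs i) (urep_decs j) _).not
  · refine UDef.forall_rep ?_
    refine UDef.imp (udef_isRep hc.weaken.weaken urep_dec _)
      (UDef.imp (udef_tors hc.weaken.weaken urep_dec _ _) ?_)
    exact UDef.exists_fin fun i =>
      udef_equiv hc.weaken.weaken urep_dec (urep_decs i).weaken _

theorem udef_goal (s : Shape) (n : ℕ) : UDef.{u} α (fun k _ _ => Goal s n k) := by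
  unfold Goal
  refine UDef.forall_table ?_
  exact UDef.imp (udef_valid utable_dec) (udef_count utable_dec n)

theorem stmtFO : StmtFO.{u} := by
  intro s n K _ _ _ hinf
  exact transfer (udef_goal s n) K hinf

end Fermat.Agent.S27.FO
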