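import Mathlib
import Fermat.Agent.S27.Shape

/-!
# Block FO of project S27: uniform first-order definability over fields

`UTerm α t` : the family of functions `t k : (α → k) → k` (`k` any field) is given by one term of
the language of rings.  `UDef α P` : the family of predicates `P k : (α → k) → Prop` is given by one
formula of the language of rings.
-/

set_option autoImplicit false

namespace Fermat.Agent.S27.FO

open FirstOrder FirstOrder.Language FirstOrder.Ring

universe u

/-- A family of functions uniformly given by a ring term. -/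
def UTerm (α : Type) (t : ∀ (k : Type u) [Field k], (α → k) → k) : Prop :=
  ∃ τ : Language.ring.Term α, ∀ (k : Type u) [Field k] [CompatibleRing k] (v : α → k),
    τ.realize v = t k v

/-- A family of predicates uniformly given by a ring formula. -/
def UDef (α : Type) (P : ∀ (k : Type u) [Field k], (α → k) → Prop) : Prop :=
  ∃ φ : Language.ring.Formula α, ∀ (k : Type u) [Field k] [CompatibleRing k] (v : α → k),
    φ.Realize v ↔ P k v

variable {α β ι : Type}

namespace UTerm

variable {t t₁ t₂ : ∀ (k : Type u) [Field k], (α → k) → k}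

theorem congr (h : UTerm α t₁) (e : ∀ (k : Type u) [Field k] (v : α → k), t₁ k v = t₂ k v) :
    UTerm α t₂ := by
  obtain ⟨τ, hτ⟩ := h
  exact ⟨τ, fun k _ _ v => (hτ k v).trans (e k v)⟩

theorem var (a : α) : UTerm.{u} α (fun _ _ v => v a) :=
  ⟨Term.var a, fun _ _ _ _ => rfl⟩

theorem zero : UTerm.{u} α (fun _ _ _ => 0) :=
  ⟨0, fun _ _ _ v => realize_zero v⟩

theorem one : UTerm.{u} α (fun _ _ _ => 1) :=
  ⟨1, fun _ _ _ v => realize_one v⟩

theorem add (h₁ : UTerm α t₁) (h₂ : UTerm α t₂) : UTerm α (fun k _ v => t₁ k v + t₂ k v) := by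
  obtain ⟨τ₁, h₁⟩ := h₁
  obtain ⟨τ₂, h₂⟩ := h₂
  exact ⟨τ₁ + τ₂, fun k _ _ v => by rw [realize_add, h₁, h₂]⟩

theorem mul (h₁ : UTerm α t₁) (h₂ : UTerm α t₂) : UTerm α (fun k _ v => t₁ k v * t₂ k v) := by
  obtain ⟨τ₁, h₁⟩ := h₁
  obtain ⟨τ₂, h₂⟩ := h₂
  exact ⟨τ₁ * τ₂, fun k _ _ v => by rw [realize_mul, h₁, h₂]⟩

theorem neg (h : UTerm α t) : UTerm α (fun k _ v => -t k v) := by
  obtain ⟨τ, h⟩ := h
  exact ⟨-τ, fun k _ _ v => by rw [realize_neg, h]⟩

theorem sub (h₁ : UTerm α t₁) (h₂ : UTerm α t₂) : UTerm α (fun k _ v => t₁ k v - t₂ k v) :=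
  (h₁.add h₂.neg).congr fun _ _ _ => (sub_eq_add_neg _ _).symm

theorem smul (h₁ : UTerm α t₁) (h₂ : UTerm α t₂) : UTerm α (fun k _ v => t₁ k v • t₂ k v) :=
  h₁.mul h₂

theorem pow (h : UTerm α t) (n : ℕ) : UTerm α (fun k _ v => t k v ^ n) := by
  induction n with
  | zero => exact one.congr fun _ _ _ => (pow_zero _).symm
  | succ n ih => exact (ih.mul h).congr fun _ _ _ => (pow_succ _ _).symm

theorem natCast (n : ℕ) : UTerm.{u} α (fun k _ _ => (n : k)) := by
  induction n with
  | zero => exact zero.congr fun _ _ _ => Nat.cast_zero.symm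
  | succ n ih => exact (ih.add one).congr fun _ _ _ => (Nat.cast_succ n).symm

theorem intCast (n : ℤ) : UTerm.{u} α (fun k _ _ => (n : k)) := by
  cases n with
  | ofNat n => exact (natCast n).congr fun _ _ _ => (Int.cast_natCast n).symm
  | negSucc n => exact (natCast (n + 1)).neg.congr fun _ _ _ => (Int.cast_negSucc n).symm

theorem sum (s : Finset ι) {f : ι → ∀ (k : Type u) [Field k], (α → k) → k}
    (h : ∀ i ∈ s, UTerm α (f i)) : UTerm α (fun k _ v => ∑ i ∈ s, f i k v) := by
  classical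
  induction s using Finset.induction_on with
  | empty => exact zero.congr fun _ _ _ => Finset.sum_empty.symm
  | insert a s ha ih =>
      exact ((h a (Finset.mem_insert_self a s)).add
        (ih fun i hi => h i (Finset.mem_insert_of_mem hi))).congr
        fun k _ v => (Finset.sum_insert (f := fun i => f i k v) ha).symm

theorem prod (s : Finset ι) {f : ι → ∀ (k : Type u) [Field k], (α → k) → k}
    (h : ∀ i ∈ s, UTerm α (f i)) : UTerm α (fun k _ v => ∏ i ∈ s, f i k v) := by
  classical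
  induction s using Finset.induction_on with
  | empty => exact one.congr fun _ _ _ => Finset.prod_empty.symm
  | insert a s ha ih =>
      exact ((h a (Finset.mem_insert_self a s)).mul
        (ih fun i hi => h i (Finset.mem_insert_of_mem hi))).congr
        fun k _ v => (Finset.prod_insert (f := fun i => f i k v) ha).symm

/-- sum over a fintype. -/
theorem fsum [Fintype ι] {f : ι → ∀ (k : Type u) [Field k], (α → k) → k}
    (h : ∀ i, UTerm α (f i)) : UTerm α (fun k _ v => ∑ i, f i k v) :=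
  sum Finset.univ fun i _ => h i

/-- `if p then _ else _` for a condition `p` not depending on the field. -/
theorem ite (p : Prop) [Decidable p] (h₁ : UTerm α t₁) (h₂ : UTerm α t₂) :
    UTerm α (fun k _ v => if p then t₁ k v else t₂ k v) := by
  by_cases hp : p
  · exact h₁.congr fun _ _ _ => (if_pos hp).symm
  · exact h₂.congr fun _ _ _ => (if_neg hp).symm

/-- change of variables. -/
theorem relabel (h : UTerm α t) (f : α → β) : UTerm β (fun k _ v => t k (v ∘ f)) := by
  obtain ⟨τ, h⟩ := h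
  exact ⟨τ.relabel f, fun k _ _ v => by rw [Term.realize_relabel, h]⟩

/-- weakening of the context. -/
theorem weaken (h : UTerm α t) : UTerm (α ⊕ β) (fun k _ v => t k (v ∘ Sum.inl)) :=
  h.relabel Sum.inl

/-- substitution. -/
theorem subst {g : α → ∀ (k : Type u) [Field k], (β → k) → k} (h : UTerm α t)
    (hg : ∀ a, UTerm β (g a)) : UTerm β (fun k _ v => t k (fun a => g a k v)) := by
  obtain ⟨τ, h⟩ := h
  choose σ hσ using hg
  refine ⟨τ.subst σ, fun k _ _ v => ?_⟩
  rw [Term.realize_subst, h]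
  show t k _ = t k _
  congr 1
  funext a
  exact hσ a k v

end UTerm

namespace UDef

variable {P Q : ∀ (k : Type u) [Field k], (α → k) → Prop}

theorem congr (h : UDef α P) (e : ∀ (k : Type u) [Field k] (v : α → k), P k v ↔ Q k v) :
    UDef α Q := by
  obtain ⟨φ, hφ⟩ := h
  exact ⟨φ, fun k _ _ v => (hφ k v).trans (e k v)⟩

theorem eq {t₁ t₂ : ∀ (k : Type u) [Field k], (α → k) → k} (h₁ : UTerm α t₁) (h₂ : UTerm α t₂) :
    UDef α (fun k _ v => t₁ k v = t₂ k v) := by
  obtain ⟨τ₁, h₁⟩ := h₁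
  obtain ⟨τ₂, h₂⟩ := h₂
  exact ⟨τ₁.equal τ₂, fun k _ _ v => by rw [Formula.realize_equal, h₁, h₂]⟩

theorem true : UDef.{u} α (fun _ _ _ => True) :=
  ⟨⊤, fun _ _ _ _ => Formula.realize_top⟩

theorem false : UDef.{u} α (fun _ _ _ => False) :=
  ⟨⊥, fun _ _ _ _ => Formula.realize_bot⟩

/-- a condition not depending on the field. -/
theorem const (p : Prop) : UDef.{u} α (fun _ _ _ => p) := by
  by_cases hp : p
  · exact true.congr fun _ _ _ => by simp [hp]
  · exact false.congr fun _ _ _ => by simp [hp]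

theorem not (h : UDef α P) : UDef α (fun k _ v => ¬ P k v) := by
  obtain ⟨φ, hφ⟩ := h
  exact ⟨φ.not, fun k _ _ v => by rw [Formula.realize_not, hφ]⟩

theorem ne {t₁ t₂ : ∀ (k : Type u) [Field k], (α → k) → k} (h₁ : UTerm α t₁) (h₂ : UTerm α t₂) :
    UDef α (fun k _ v => t₁ k v ≠ t₂ k v) :=
  (eq h₁ h₂).not

theorem and (h₁ : UDef α P) (h₂ : UDef α Q) : UDef α (fun k _ v => P k v ∧ Q k v) := by
  obtain ⟨φ, hφ⟩ := h₁
  obtain ⟨ψ, hψ⟩ := h₂
  exact ⟨φ ⊓ ψ, fun k _ _ v => by rw [Formula.realize_inf, hφ, hψ]⟩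

theorem or (h₁ : UDef α P) (h₂ : UDef α Q) : UDef α (fun k _ v => P k v ∨ Q k v) := by
  obtain ⟨φ, hφ⟩ := h₁
  obtain ⟨ψ, hψ⟩ := h₂
  exact ⟨φ ⊔ ψ, fun k _ _ v => by rw [Formula.realize_sup, hφ, hψ]⟩

theorem imp (h₁ : UDef α P) (h₂ : UDef α Q) : UDef α (fun k _ v => P k v → Q k v) := by
  obtain ⟨φ, hφ⟩ := h₁
  obtain ⟨ψ, hψ⟩ := h₂
  exact ⟨φ.imp ψ, fun k _ _ v => by rw [Formula.realize_imp, hφ, hψ]⟩

theorem iff (h₁ : UDef α P) (h₂ : UDef α Q) : UDef α (fun k _ v => P k v ↔ Q k v) := by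
  obtain ⟨φ, hφ⟩ := h₁
  obtain ⟨ψ, hψ⟩ := h₂
  exact ⟨φ.iff ψ, fun k _ _ v => by rw [Formula.realize_iff, hφ, hψ]⟩

/-- implication from a condition not depending on the field. -/
theorem imp_const (p : Prop) (h : UDef α P) : UDef α (fun k _ v => p → P k v) :=
  (const p).imp h

/-- `∀` over a finite index type. -/
theorem forall_fin [Finite ι] {R : ι → ∀ (k : Type u) [Field k], (α → k) → Prop}
    (h : ∀ i, UDef α (R i)) : UDef α (fun k _ v => ∀ i, R i k v) := by
  choose φ hφ using h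
  refine ⟨Formula.iInf φ, fun k _ _ v => ?_⟩
  rw [Formula.realize_iInf]
  exact forall_congr' fun i => hφ i k v

/-- `∃` over a finite index type. -/
theorem exists_fin [Finite ι] {R : ι → ∀ (k : Type u) [Field k], (α → k) → Prop}
    (h : ∀ i, UDef α (R i)) : UDef α (fun k _ v => ∃ i, R i k v) := by
  choose φ hφ using h
  refine ⟨Formula.iSup φ, fun k _ _ v => ?_⟩
  rw [Formula.realize_iSup]
  exact exists_congr fun i => hφ i k v

/-- change of variables. -/
theorem relabel (h : UDef α P) (f : α → β) : UDef β (fun k _ v => P k (v ∘ f)) := by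
  obtain ⟨φ, hφ⟩ := h
  exact ⟨φ.relabel f, fun k _ _ v => by rw [Formula.realize_relabel, hφ]⟩

theorem weaken (h : UDef α P) : UDef (α ⊕ β) (fun k _ v => P k (v ∘ Sum.inl)) :=
  h.relabel Sum.inl

/-- `∃` over a finite family of field elements. -/
theorem ex [Finite β] {R : ∀ (k : Type u) [Field k], (α ⊕ β → k) → Prop} (h : UDef (α ⊕ β) R) :
    UDef α (fun k _ v => ∃ w : β → k, R k (Sum.elim v w)) := by
  obtain ⟨φ, hφ⟩ := h
  refine ⟨φ.iExs β, fun k _ _ v => ?_⟩
  rw [Formula.realize_iExs]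
  exact exists_congr fun w => hφ k _

/-- `∀` over a finite family of field elements. -/
theorem all [Finite β] {R : ∀ (k : Type u) [Field k], (α ⊕ β → k) → Prop} (h : UDef (α ⊕ β) R) :
    UDef α (fun k _ v => ∀ w : β → k, R k (Sum.elim v w)) := by
  obtain ⟨φ, hφ⟩ := h
  refine ⟨φ.iAlls β, fun k _ _ v => ?_⟩
  rw [Formula.realize_iAlls]
  exact forall_congr' fun w => hφ k _

/-- `∃` over a type `X k` parametrised by finite families of field elements through a surjective
decoding map `dec`.  In the hypothesis the old context is `v ∘ Sum.inl`, the new object is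
`dec k (v ∘ Sum.inr)`. -/
theorem exists_dec [Finite β] {X : ∀ (k : Type u) [Field k], Type u}
    (dec : ∀ (k : Type u) [Field k], (β → k) → X k)
    (hdec : ∀ (k : Type u) [Field k], Function.Surjective (dec k))
    {R : ∀ (k : Type u) [Field k], (α → k) → X k → Prop}
    (h : UDef (α ⊕ β) (fun k _ v => R k (v ∘ Sum.inl) (dec k (v ∘ Sum.inr)))) :
    UDef α (fun k _ v => ∃ x : X k, R k v x) := by
  refine h.ex.congr fun k _ v => ?_
  simp only [Sum.elim_comp_inl, Sum.elim_comp_inr]
  exact ⟨fun ⟨w, hw⟩ => ⟨_, hw⟩, fun ⟨x, hx⟩ => by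
    obtain ⟨w, rfl⟩ := hdec k x
    exact ⟨w, hx⟩⟩

/-- `∀` over a type `X k` parametrised by finite families of field elements. -/
theorem forall_dec [Finite β] {X : ∀ (k : Type u) [Field k], Type u}
    (dec : ∀ (k : Type u) [Field k], (β → k) → X k)
    (hdec : ∀ (k : Type u) [Field k], Function.Surjective (dec k))
    {R : ∀ (k : Type u) [Field k], (α → k) → X k → Prop}
    (h : UDef (α ⊕ β) (fun k _ v => R k (v ∘ Sum.inl) (dec k (v ∘ Sum.inr)))) :
    UDef α (fun k _ v => ∀ x : X k, R k v x) := by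
  refine h.all.congr fun k _ v => ?_
  simp only [Sum.elim_comp_inl, Sum.elim_comp_inr]
  exact ⟨fun hw x => by
    obtain ⟨w, rfl⟩ := hdec k x
    exact hw w, fun hx w => hx _⟩

end UDef

end Fermat.Agent.S27.FO
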