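import Fermat.Agent.S27.FO.Framework

/-!
# Block FO of project S27: uniform vectors, matrices, tables, representations

An object (vector, matrix, `Elt`, `Table`, `Rep`) depending on a field `k` and a valuation
`v : α → k` is *uniform* if all its entries are `UTerm`s.  Decoding maps turn finite families of
field elements into such objects; they are used for the quantifiers.
-/

set_option autoImplicit false

namespace Fermat.Agent.S27.FO

open FirstOrder FirstOrder.Language FirstOrder.Ring

universe u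

variable {α β ι : Type}

/-- uniform vectors. -/
def UVec (α : Type) {ι : Type} (x : ∀ (k : Type u) [Field k], (α → k) → ι → k) : Prop :=
  ∀ i, UTerm α (fun k _ v => x k v i)

/-- uniform matrices. -/
def UMat (α : Type) {m n : Type} (M : ∀ (k : Type u) [Field k], (α → k) → Matrix m n k) : Prop :=
  ∀ a b, UTerm α (fun k _ v => M k v a b)

/-- uniform elements. -/
def UElt (α : Type) {s : Shape} {N : ℕ} (p : ∀ (k : Type u) [Field k], (α → k) → Elt s N k) :
    Prop :=
  ∀ j t, UTerm α (fun k _ v => p k v j t)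

/-- uniform tables. -/
def UTable (α : Type) {s : Shape} (c : ∀ (k : Type u) [Field k], (α → k) → Table s k) : Prop :=
  ∀ i j l t, UTerm α (fun k _ v => c k v i j l t)

/-- uniform representations. -/
structure URep (α : Type) {s : Shape} {d : ℕ}
    (r : ∀ (k : Type u) [Field k], (α → k) → Rep s k d) : Prop where
  X : UMat α (fun k _ v => (r k v).X)
  Y : ∀ j, UMat α (fun k _ v => (r k v).Y j)
  e : UVec α (fun k _ v => (r k v).e)

/-! ### Weakening -/

theorem UVec.weaken {x : ∀ (k : Type u) [Field k], (α → k) → ι → k} (h : UVec α x) :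
    UVec (α ⊕ β) (fun k _ v => x k (v ∘ Sum.inl)) := fun i => (h i).weaken

theorem UMat.weaken {m n : Type} {M : ∀ (k : Type u) [Field k], (α → k) → Matrix m n k}
    (h : UMat α M) : UMat (α ⊕ β) (fun k _ v => M k (v ∘ Sum.inl)) := fun a b => (h a b).weaken

theorem UElt.weaken {s : Shape} {N : ℕ} {p : ∀ (k : Type u) [Field k], (α → k) → Elt s N k}
    (h : UElt α p) : UElt (α ⊕ β) (fun k _ v => p k (v ∘ Sum.inl)) := fun j t => (h j t).weaken

theorem UTable.weaken {s : Shape} {c : ∀ (k : Type u) [Field k], (α → k) → Table s k}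
    (h : UTable α c) : UTable (α ⊕ β) (fun k _ v => c k (v ∘ Sum.inl)) :=
  fun i j l t => (h i j l t).weaken

theorem URep.weaken {s : Shape} {d : ℕ} {r : ∀ (k : Type u) [Field k], (α → k) → Rep s k d}
    (h : URep α r) : URep (α ⊕ β) (fun k _ v => r k (v ∘ Sum.inl)) :=
  ⟨h.X.weaken, fun j => (h.Y j).weaken, h.e.weaken⟩

/-! ### Matrix operations -/

namespace UMat

variable {m n o : Type}

theorem congr {M M' : ∀ (k : Type u) [Field k], (α → k) → Matrix m n k} (h : UMat α M)
    (e : ∀ (k : Type u) [Field k] (v : α → k), M k v = M' k v) : UMat α M' := fun a b =>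
  (h a b).congr fun k _ v => by rw [e k v]

theorem zero : UMat.{u} α (fun k _ _ => (0 : Matrix m n k)) := fun _ _ => UTerm.zero

theorem one [DecidableEq m] : UMat.{u} α (fun k _ _ => (1 : Matrix m m k)) := fun a b =>
  (UTerm.ite (a = b) UTerm.one UTerm.zero).congr fun _ _ _ => (Matrix.one_apply).symm

theorem add {M M' : ∀ (k : Type u) [Field k], (α → k) → Matrix m n k} (h : UMat α M)
    (h' : UMat α M') : UMat α (fun k _ v => M k v + M' k v) := fun a b => (h a b).add (h' a b)

theorem smul {t : ∀ (k : Type u) [Field k], (α → k) → k}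
    {M : ∀ (k : Type u) [Field k], (α → k) → Matrix m n k} (ht : UTerm α t) (h : UMat α M) :
    UMat α (fun k _ v => t k v • M k v) := fun a b => ht.mul (h a b)

theorem mul [Fintype n] {M : ∀ (k : Type u) [Field k], (α → k) → Matrix m n k}
    {M' : ∀ (k : Type u) [Field k], (α → k) → Matrix n o k} (h : UMat α M) (h' : UMat α M') :
    UMat α (fun k _ v => M k v * M' k v) := fun a b =>
  (UTerm.fsum fun x => (h a x).mul (h' x b)).congr fun _ _ _ => (Matrix.mul_apply).symm

theorem pow [Fintype m] [DecidableEq m] {M : ∀ (k : Type u) [Field k], (α → k) → Matrix m m k}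
    (h : UMat α M) (e : ℕ) : UMat α (fun k _ v => M k v ^ e) := by
  induction e with
  | zero => exact one.congr fun k _ v => (pow_zero _).symm
  | succ e ih => exact (ih.mul h).congr fun k _ v => (pow_succ _ _).symm

theorem sum (S : Finset ι) {M : ι → ∀ (k : Type u) [Field k], (α → k) → Matrix m n k}
    (h : ∀ i ∈ S, UMat α (M i)) : UMat α (fun k _ v => ∑ i ∈ S, M i k v) := fun a b =>
  (UTerm.sum S fun i hi => h i hi a b).congr fun _ _ _ => (Matrix.sum_apply _ _ _ _).symm

theorem fsum [Fintype ι] {M : ι → ∀ (k : Type u) [Field k], (α → k) → Matrix m n k}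
    (h : ∀ i, UMat α (M i)) : UMat α (fun k _ v => ∑ i, M i k v) :=
  sum Finset.univ fun i _ => h i

theorem mulVec [Fintype n] {M : ∀ (k : Type u) [Field k], (α → k) → Matrix m n k}
    {x : ∀ (k : Type u) [Field k], (α → k) → n → k} (h : UMat α M) (hx : UVec α x) :
    UVec α (fun k _ v => (M k v).mulVec (x k v)) := fun a =>
  UTerm.fsum fun b => (h a b).mul (hx b)

theorem prod_ofFn [Fintype m] [DecidableEq m] (e : ℕ)
    {M : Fin e → ∀ (k : Type u) [Field k], (α → k) → Matrix m m k} (h : ∀ i, UMat α (M i)) :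
    UMat α (fun k _ v => (List.ofFn fun i => M i k v).prod) := by
  induction e with
  | zero => exact one.congr fun k _ v => by simp
  | succ e ih =>
      exact ((h 0).mul (ih fun i => h i.succ)).congr fun k _ v => by
        rw [List.ofFn_succ, List.prod_cons]

end UMat

/-! ### Equalities -/

theorem UDef.vecEq [Finite ι] {x y : ∀ (k : Type u) [Field k], (α → k) → ι → k} (hx : UVec α x)
    (hy : UVec α y) : UDef α (fun k _ v => x k v = y k v) :=
  (UDef.forall_fin fun i => UDef.eq (hx i) (hy i)).congr fun _ _ _ => funext_iff.symm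

theorem UVec.zero : UVec.{u} α (fun k _ _ => (0 : ι → k)) := fun _ => UTerm.zero

theorem UDef.matEq {m n : Type} [Finite m] [Finite n]
    {M M' : ∀ (k : Type u) [Field k], (α → k) → Matrix m n k} (h : UMat α M) (h' : UMat α M') :
    UDef α (fun k _ v => M k v = M' k v) :=
  (UDef.forall_fin fun a => UDef.forall_fin fun b => UDef.eq (h a b) (h' a b)).congr
    fun _ _ _ => Matrix.ext_iff

theorem UDef.eltEq {s : Shape} {N : ℕ} {p p' : ∀ (k : Type u) [Field k], (α → k) → Elt s N k}
    (h : UElt α p) (h' : UElt α p') : UDef α (fun k _ v => p k v = p' k v) :=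
  (UDef.forall_fin fun a => UDef.forall_fin fun b => UDef.eq (h a b) (h' a b)).congr
    fun _ _ _ => ⟨fun H => funext fun a => funext fun b => H a b, fun H a b => by rw [H]⟩

theorem UElt.zero {s : Shape} {N : ℕ} : UElt.{u} α (fun k _ _ => (0 : Elt s N k)) :=
  fun _ _ => UTerm.zero

/-! ### Decoding maps -/

section Dec

variable (s : Shape) (k : Type u)

/-- index type of an `Elt`. -/
abbrev EltIdx (N : ℕ) : Type := Fin s.m × Fin N

/-- index type of a `Table`. -/
abbrev TableIdx : Type := Fin s.m × Fin s.m × Fin s.m × Fin s.T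

/-- index type of a `Rep`. -/
abbrev RepIdx (d : ℕ) : Type := (Fin d × Fin d) ⊕ (Fin s.m × Fin d × Fin d) ⊕ Fin d

variable {s}

def decScalar (w : Unit → k) : k := w ()

def decElt {N : ℕ} (w : EltIdx s N → k) : Elt s N k := fun j t => w (j, t)

def decElts {n N : ℕ} (w : Fin n × EltIdx s N → k) : Fin n → Elt s N k := fun i j t => w (i, j, t)

def decTable (w : TableIdx s → k) : Table s k := fun i j l t => w (i, j, l, t)

def decRep {d : ℕ} (w : RepIdx s d → k) : Rep s k d where
  X := fun a b => w (Sum.inl (a, b))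
  Y := fun j a b => w (Sum.inr (Sum.inl (j, a, b)))
  e := fun a => w (Sum.inr (Sum.inr a))

def decReps {n d : ℕ} (w : Fin n × RepIdx s d → k) : Fin n → Rep s k d :=
  fun i => decRep k fun x => w (i, x)

theorem decScalar_surjective : Function.Surjective (decScalar k) :=
  fun x => ⟨fun _ => x, rfl⟩

theorem decElt_surjective {N : ℕ} : Function.Surjective (decElt (s := s) k (N := N)) :=
  fun p => ⟨fun x => p x.1 x.2, rfl⟩

theorem decElts_surjective {n N : ℕ} :
    Function.Surjective (decElts (s := s) k (n := n) (N := N)) :=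
  fun p => ⟨fun x => p x.1 x.2.1 x.2.2, rfl⟩

theorem decTable_surjective : Function.Surjective (decTable (s := s) k) :=
  fun c => ⟨fun x => c x.1 x.2.1 x.2.2.1 x.2.2.2, rfl⟩

theorem decRep_surjective {d : ℕ} : Function.Surjective (decRep (s := s) k (d := d)) :=
  fun r => ⟨Sum.elim (fun x => r.X x.1 x.2)
    (Sum.elim (fun x => r.Y x.1 x.2.1 x.2.2) fun a => r.e a), rfl⟩

theorem decReps_surjective {n d : ℕ} :
    Function.Surjective (decReps (s := s) k (n := n) (d := d)) := by
  intro R
  choose w hw using fun i => decRep_surjective k (R i)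
  exact ⟨fun x => w x.1 x.2, funext fun i => hw i⟩

end Dec

/-! ### The new variables are uniform -/

theorem uterm_dec : UTerm.{u} (α ⊕ Unit) (fun k _ v => decScalar k (v ∘ Sum.inr)) :=
  UTerm.var (Sum.inr ())

theorem uvec_dec : UVec.{u} (α ⊕ ι) (fun _ _ v => (v ∘ Sum.inr : ι → _)) :=
  fun i => UTerm.var (Sum.inr i)

theorem uelt_dec {s : Shape} {N : ℕ} :
    UElt.{u} (α ⊕ EltIdx s N) (fun k _ v => decElt k (v ∘ Sum.inr)) :=
  fun j t => UTerm.var (Sum.inr (j, t))

theorem uelt_decs {s : Shape} {n N : ℕ} (i : Fin n) :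
    UElt.{u} (α ⊕ (Fin n × EltIdx s N)) (fun k _ v => decElts k (v ∘ Sum.inr) i) :=
  fun j t => UTerm.var (Sum.inr (i, j, t))

theorem utable_dec {s : Shape} :
    UTable.{u} (α ⊕ TableIdx s) (fun k _ v => decTable k (v ∘ Sum.inr)) :=
  fun i j l t => UTerm.var (Sum.inr (i, j, l, t))

theorem urep_dec {s : Shape} {d : ℕ} :
    URep.{u} (α ⊕ RepIdx s d) (fun k _ v => decRep k (v ∘ Sum.inr)) :=
  ⟨fun a b => UTerm.var (Sum.inr (Sum.inl (a, b))),
   fun j a b => UTerm.var (Sum.inr (Sum.inr (Sum.inl (j, a, b)))),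
   fun a => UTerm.var (Sum.inr (Sum.inr (Sum.inr a)))⟩

theorem urep_decs {s : Shape} {n d : ℕ} (i : Fin n) :
    URep.{u} (α ⊕ (Fin n × RepIdx s d)) (fun k _ v => decReps k (v ∘ Sum.inr) i) :=
  ⟨fun a b => UTerm.var (Sum.inr (i, Sum.inl (a, b))),
   fun j a b => UTerm.var (Sum.inr (i, Sum.inr (Sum.inl (j, a, b)))),
   fun a => UTerm.var (Sum.inr (i, Sum.inr (Sum.inr a)))⟩

/-! ### Quantifiers over structured objects

In each hypothesis the old context is `v ∘ Sum.inl` and the new object is `dec… k (v ∘ Sum.inr)`. -/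

namespace UDef

theorem exists_scalar {R : ∀ (k : Type u) [Field k], (α → k) → k → Prop}
    (h : UDef (α ⊕ Unit) (fun k _ v => R k (v ∘ Sum.inl) (decScalar k (v ∘ Sum.inr)))) :
    UDef α (fun k _ v => ∃ x : k, R k v x) :=
  exists_dec (X := fun k _ => k) (fun k _ => decScalar k) (fun k _ => decScalar_surjective k) h

theorem forall_scalar {R : ∀ (k : Type u) [Field k], (α → k) → k → Prop}
    (h : UDef (α ⊕ Unit) (fun k _ v => R k (v ∘ Sum.inl) (decScalar k (v ∘ Sum.inr)))) :
    UDef α (fun k _ v => ∀ x : k, R k v x) :=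
  forall_dec (X := fun k _ => k) (fun k _ => decScalar k) (fun k _ => decScalar_surjective k) h

theorem exists_vec [Finite ι] {R : ∀ (k : Type u) [Field k], (α → k) → (ι → k) → Prop}
    (h : UDef (α ⊕ ι) (fun k _ v => R k (v ∘ Sum.inl) (v ∘ Sum.inr))) :
    UDef α (fun k _ v => ∃ x : ι → k, R k v x) :=
  exists_dec (X := fun k _ => ι → k) (fun _ _ => id) (fun _ _ => Function.surjective_id) h

theorem forall_vec [Finite ι] {R : ∀ (k : Type u) [Field k], (α → k) → (ι → k) → Prop}
    (h : UDef (α ⊕ ι) (fun k _ v => R k (v ∘ Sum.inl) (v ∘ Sum.inr))) :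
    UDef α (fun k _ v => ∀ x : ι → k, R k v x) :=
  forall_dec (X := fun k _ => ι → k) (fun _ _ => id) (fun _ _ => Function.surjective_id) h

variable {s : Shape}

theorem exists_elt {N : ℕ} {R : ∀ (k : Type u) [Field k], (α → k) → Elt s N k → Prop}
    (h : UDef (α ⊕ EltIdx s N) (fun k _ v => R k (v ∘ Sum.inl) (decElt k (v ∘ Sum.inr)))) :
    UDef α (fun k _ v => ∃ x : Elt s N k, R k v x) :=
  exists_dec (X := fun k _ => Elt s N k) (fun k _ => decElt k) (fun k _ => decElt_surjective k) h

theorem forall_elt {N : ℕ} {R : ∀ (k : Type u) [Field k], (α → k) → Elt s N k → Prop}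
    (h : UDef (α ⊕ EltIdx s N) (fun k _ v => R k (v ∘ Sum.inl) (decElt k (v ∘ Sum.inr)))) :
    UDef α (fun k _ v => ∀ x : Elt s N k, R k v x) :=
  forall_dec (X := fun k _ => Elt s N k) (fun k _ => decElt k) (fun k _ => decElt_surjective k) h

theorem forall_elts {n N : ℕ}
    {R : ∀ (k : Type u) [Field k], (α → k) → (Fin n → Elt s N k) → Prop}
    (h : UDef (α ⊕ (Fin n × EltIdx s N))
      (fun k _ v => R k (v ∘ Sum.inl) (decElts k (v ∘ Sum.inr)))) :
    UDef α (fun k _ v => ∀ x : Fin n → Elt s N k, R k v x) :=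
  forall_dec (X := fun k _ => Fin n → Elt s N k) (fun k _ => decElts k)
    (fun k _ => decElts_surjective k) h

theorem forall_table {R : ∀ (k : Type u) [Field k], (α → k) → Table s k → Prop}
    (h : UDef (α ⊕ TableIdx s) (fun k _ v => R k (v ∘ Sum.inl) (decTable k (v ∘ Sum.inr)))) :
    UDef α (fun k _ v => ∀ x : Table s k, R k v x) :=
  forall_dec (X := fun k _ => Table s k) (fun k _ => decTable k)
    (fun k _ => decTable_surjective k) h

theorem exists_rep {d : ℕ} {R : ∀ (k : Type u) [Field k], (α → k) → Rep s k d → Prop}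
    (h : UDef (α ⊕ RepIdx s d) (fun k _ v => R k (v ∘ Sum.inl) (decRep k (v ∘ Sum.inr)))) :
    UDef α (fun k _ v => ∃ x : Rep s k d, R k v x) :=
  exists_dec (X := fun k _ => Rep s k d) (fun k _ => decRep k) (fun k _ => decRep_surjective k) h

theorem forall_rep {d : ℕ} {R : ∀ (k : Type u) [Field k], (α → k) → Rep s k d → Prop}
    (h : UDef (α ⊕ RepIdx s d) (fun k _ v => R k (v ∘ Sum.inl) (decRep k (v ∘ Sum.inr)))) :
    UDef α (fun k _ v => ∀ x : Rep s k d, R k v x) :=
  forall_dec (X := fun k _ => Rep s k d) (fun k _ => decRep k) (fun k _ => decRep_surjective k) h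

theorem exists_reps {n d : ℕ}
    {R : ∀ (k : Type u) [Field k], (α → k) → (Fin n → Rep s k d) → Prop}
    (h : UDef (α ⊕ (Fin n × RepIdx s d))
      (fun k _ v => R k (v ∘ Sum.inl) (decReps k (v ∘ Sum.inr)))) :
    UDef α (fun k _ v => ∃ x : Fin n → Rep s k d, R k v x) :=
  exists_dec (X := fun k _ => Fin n → Rep s k d) (fun k _ => decReps k)
    (fun k _ => decReps_surjective k) h

end UDef

end Fermat.Agent.S27.FO
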