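import Fermat.Agent.S27.FO.TableValid

/-!
# Block FO: the predicates on `Rep` are uniformly definable
-/

set_option autoImplicit false

namespace Fermat.Agent.S27.FO

universe u

variable {α : Type} {s : Shape} {d d₁ d₂ d₃ N : ℕ}

theorem umat_act {r : ∀ (k : Type u) [Field k], (α → k) → Rep s k d}
    {p : ∀ (k : Type u) [Field k], (α → k) → Elt s N k} (hr : URep α r) (hp : UElt α p) :
    UMat α (fun k _ v => (r k v).act (p k v)) := by
  unfold Rep.act
  exact UMat.fsum fun j => UMat.fsum fun t => UMat.smul (hp j t) (UMat.mul (hr.X.pow t) (hr.Y j))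

theorem udef_mem {r : ∀ (k : Type u) [Field k], (α → k) → Rep s k d}
    {p : ∀ (k : Type u) [Field k], (α → k) → Elt s N k} (hr : URep α r) (hp : UElt α p) :
    UDef α (fun k _ v => (r k v).Mem (p k v)) := by
  unfold Rep.Mem
  exact UDef.vecEq ((umat_act hr hp).mulVec hr.e) UVec.zero

theorem udef_isRep {c : ∀ (k : Type u) [Field k], (α → k) → Table s k}
    {r : ∀ (k : Type u) [Field k], (α → k) → Rep s k d} (hc : UTable α c) (hr : URep α r)
    (N : ℕ) : UDef α (fun k _ v => (r k v).IsRep (c k v) N) := by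
  unfold Rep.IsRep
  refine UDef.and (UDef.matEq (hr.Y s.zero) UMat.one) (UDef.and ?_ (UDef.and ?_ ?_))
  · exact UDef.forall_fin fun j => UDef.matEq (UMat.mul hr.X (hr.Y j)) (UMat.mul (hr.Y j) hr.X)
  · exact UDef.forall_fin fun i => UDef.forall_fin fun j =>
      UDef.matEq (UMat.mul (hr.Y i) (hr.Y j))
        (UMat.fsum fun l => UMat.mul (umat_evM hc hr.X i j l) (hr.Y l))
  · refine UDef.forall_vec ?_
    refine UDef.exists_elt ?_
    exact UDef.vecEq ((umat_act hr.weaken.weaken uelt_dec).mulVec hr.e.weaken.weaken)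
      (UVec.weaken uvec_dec)

theorem udef_wtLE {p : ∀ (k : Type u) [Field k], (α → k) → Elt s N k} (hp : UElt α p) (w : ℕ) :
    UDef α (fun k _ v => WtLE s w (p k v)) := by
  unfold WtLE
  exact UDef.forall_fin fun j => UDef.forall_fin fun t =>
    UDef.imp_const _ (UDef.eq (hp j t) UTerm.zero)

theorem udef_princ {r : ∀ (k : Type u) [Field k], (α → k) → Rep s k d} (hr : URep α r) (N : ℕ) :
    UDef α (fun k _ v => (r k v).Princ N) := by
  unfold Rep.Princ
  refine UDef.exists_elt ?_
  exact UDef.and (UDef.not (UDef.eltEq uelt_dec UElt.zero))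
    (UDef.and (udef_wtLE uelt_dec d) (udef_mem hr.weaken uelt_dec))

end Fermat.Agent.S27.FO
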