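import Fermat.Agent.S27.FO.RepPred1

/-!
# Block FO: the predicates on `Rep` are uniformly definable
-/

set_option autoImplicit false

namespace Fermat.Agent.S27.FO

universe u

variable {α : Type} {s : Shape} {d d₁ d₂ d₃ N : ℕ}

theorem udef_mulLE {r₁ : ∀ (k : Type u) [Field k], (α → k) → Rep s k d₁}
    {r₂ : ∀ (k : Type u) [Field k], (α → k) → Rep s k d₂}
    {r₃ : ∀ (k : Type u) [Field k], (α → k) → Rep s k d₃}
    (h₁ : URep α r₁) (h₂ : URep α r₂) (h₃ : URep α r₃) (N : ℕ) :
    UDef α (fun k _ v => Rep.MulLE N (r₁ k v) (r₂ k v) (r₃ k v)) := by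
  unfold Rep.MulLE
  refine UDef.forall_elt ?_
  refine UDef.forall_elt ?_
  refine UDef.imp (udef_mem h₁.weaken.weaken uelt_dec.weaken) ?_
  refine UDef.imp (udef_mem h₂.weaken.weaken uelt_dec) ?_
  exact UDef.vecEq (((umat_act h₃.weaken.weaken uelt_dec.weaken).mul
    (umat_act h₃.weaken.weaken uelt_dec)).mulVec h₃.weaken.weaken.e) UVec.zero

theorem udef_powLE {r₁ : ∀ (k : Type u) [Field k], (α → k) → Rep s k d₁}
    {r₃ : ∀ (k : Type u) [Field k], (α → k) → Rep s k d₃}
    (h₁ : URep α r₁) (h₃ : URep α r₃) (N n : ℕ) :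
    UDef α (fun k _ v => Rep.PowLE N n (r₁ k v) (r₃ k v)) := by
  unfold Rep.PowLE
  refine UDef.forall_elts ?_
  refine UDef.imp (UDef.forall_fin fun i => udef_mem h₁.weaken (uelt_decs i)) ?_
  exact UDef.vecEq ((UMat.prod_ofFn n fun i => umat_act h₃.weaken (uelt_decs i)).mulVec
    h₃.weaken.e) UVec.zero

theorem udef_tors {c : ∀ (k : Type u) [Field k], (α → k) → Table s k}
    {r : ∀ (k : Type u) [Field k], (α → k) → Rep s k d} (hc : UTable α c) (hr : URep α r)
    (N n : ℕ) : UDef α (fun k _ v => (r k v).Tors (c k v) N n) := by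
  unfold Rep.Tors
  refine UDef.exists_rep ?_
  exact (udef_isRep hc.weaken urep_dec N).and
    ((udef_powLE hr.weaken urep_dec N n).and (udef_princ urep_dec N))

theorem udef_equiv {c : ∀ (k : Type u) [Field k], (α → k) → Table s k}
    {r₁ r₂ : ∀ (k : Type u) [Field k], (α → k) → Rep s k d} (hc : UTable α c) (h₁ : URep α r₁)
    (h₂ : URep α r₂) (N : ℕ) : UDef α (fun k _ v => (r₁ k v).Equiv (c k v) N (r₂ k v)) := by
  unfold Rep.Equiv
  refine UDef.exists_rep ?_
  refine UDef.exists_rep ?_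
  refine UDef.exists_rep ?_
  exact (udef_isRep hc.weaken.weaken.weaken urep_dec.weaken.weaken N).and
    ((udef_isRep hc.weaken.weaken.weaken urep_dec.weaken N).and
    ((udef_isRep hc.weaken.weaken.weaken urep_dec N).and
    ((udef_mulLE h₁.weaken.weaken.weaken urep_dec.weaken.weaken urep_dec.weaken N).and
    ((udef_princ urep_dec.weaken N).and
    ((udef_mulLE h₂.weaken.weaken.weaken urep_dec.weaken.weaken urep_dec N).and
    (udef_princ urep_dec N))))))

end Fermat.Agent.S27.FO
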