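import Fermat.Agent.S27.FO.Objects

/-!
# Block FO: `Table.ev`, `dev`, `evM`, `IsPoint`, `IsTangent`, `Valid` are uniformly definable
-/

set_option autoImplicit false

namespace Fermat.Agent.S27.FO

universe u

variable {α : Type} {s : Shape}

theorem uterm_ev {c : ∀ (k : Type u) [Field k], (α → k) → Table s k}
    {ξ : ∀ (k : Type u) [Field k], (α → k) → k} (hc : UTable α c) (hξ : UTerm α ξ)
    (i j l : Fin s.m) : UTerm α (fun k _ v => (c k v).ev (ξ k v) i j l) :=
  UTerm.fsum fun t : Fin s.T => (hc i j l t).mul (hξ.pow (t : ℕ))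

theorem uterm_dev {c : ∀ (k : Type u) [Field k], (α → k) → Table s k}
    {ξ : ∀ (k : Type u) [Field k], (α → k) → k} (hc : UTable α c) (hξ : UTerm α ξ)
    (i j l : Fin s.m) : UTerm α (fun k _ v => (c k v).dev (ξ k v) i j l) :=
  UTerm.fsum fun t : Fin s.T =>
    ((UTerm.natCast (t : ℕ)).mul (hc i j l t)).mul (hξ.pow ((t : ℕ) - 1))

theorem umat_evM {d : ℕ} {c : ∀ (k : Type u) [Field k], (α → k) → Table s k}
    {X : ∀ (k : Type u) [Field k], (α → k) → Matrix (Fin d) (Fin d) k} (hc : UTable α c)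
    (hX : UMat α X) (i j l : Fin s.m) : UMat α (fun k _ v => (c k v).evM (X k v) i j l) :=
  UMat.fsum fun t : Fin s.T => UMat.smul (hc i j l t) (hX.pow (t : ℕ))

theorem udef_isPoint {c : ∀ (k : Type u) [Field k], (α → k) → Table s k}
    {ξ : ∀ (k : Type u) [Field k], (α → k) → k}
    {η : ∀ (k : Type u) [Field k], (α → k) → Fin s.m → k}
    (hc : UTable α c) (hξ : UTerm α ξ) (hη : UVec α η) :
    UDef α (fun k _ v => (c k v).IsPoint (ξ k v) (η k v)) :=
  UDef.and (UDef.eq (hη s.zero) UTerm.one)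
    (UDef.forall_fin fun i => UDef.forall_fin fun j =>
      UDef.eq ((hη i).mul (hη j)) (UTerm.fsum fun l => (uterm_ev hc hξ i j l).mul (hη l)))

theorem udef_isTangent {c : ∀ (k : Type u) [Field k], (α → k) → Table s k}
    {ξ x : ∀ (k : Type u) [Field k], (α → k) → k}
    {η w : ∀ (k : Type u) [Field k], (α → k) → Fin s.m → k}
    (hc : UTable α c) (hξ : UTerm α ξ) (hη : UVec α η) (hx : UTerm α x) (hw : UVec α w) :
    UDef α (fun k _ v => (c k v).IsTangent (ξ k v) (η k v) (x k v) (w k v)) :=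
  UDef.and (UDef.eq (hw s.zero) UTerm.zero)
    (UDef.forall_fin fun i => UDef.forall_fin fun j =>
      UDef.eq (((hw i).mul (hη j)).add ((hη i).mul (hw j)))
        (UTerm.fsum fun l => (((uterm_dev hc hξ i j l).mul hx).mul (hη l)).add
          ((uterm_ev hc hξ i j l).mul (hw l))))

theorem valid_iff {k : Type u} [Field k] (c : Table s k) : Valid s c ↔
    (∀ i j l t, c i j l t = c j i l t) ∧
    (∀ (j l : Fin s.m) (t : Fin s.T), c s.zero j l t = if l = j ∧ (t : ℕ) = 0 then 1 else 0) ∧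
    (∀ (i j l : Fin s.m) (t : Fin s.T), s.b i + s.b j < s.m * (t : ℕ) + s.b l → c i j l t = 0) ∧
    (∀ (i j : Fin s.m) (t : Fin s.T), s.m * (t : ℕ) + s.b (s.add i j) = s.b i + s.b j →
      c i j (s.add i j) t ≠ 0) ∧
    (∀ (ξ : k) (i j r u : Fin s.m),
      ∑ l, c.ev ξ i j l * c.ev ξ l r u = ∑ l, c.ev ξ j r l * c.ev ξ i l u) ∧
    (∀ (ξ : k) (η : Fin s.m → k), c.IsPoint ξ η → ∀ (u u' : k) (w w' : Fin s.m → k),
      c.IsTangent ξ η u w → c.IsTangent ξ η u' w' →
        ∃ α β : k, (α ≠ 0 ∨ β ≠ 0) ∧ α * u + β * u' = 0 ∧ ∀ j, α * w j + β * w' j = 0) := by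
  constructor
  · intro h
    exact ⟨fun i j l t => by rw [h.symm i j], h.unit, h.wt, h.lead, h.assoc, h.smooth⟩
  · rintro ⟨h1, h2, h3, h4, h5, h6⟩
    exact ⟨fun i j => funext fun l => funext fun t => h1 i j l t, h2, h3, h4, h5, h6⟩

theorem udef_valid {c : ∀ (k : Type u) [Field k], (α → k) → Table s k} (hc : UTable α c) :
    UDef α (fun k _ v => Valid s (c k v)) := by
  refine UDef.congr ?_ fun k _ v => (valid_iff (c k v)).symm
  refine UDef.and ?_ (UDef.and ?_ (UDef.and ?_ (UDef.and ?_ (UDef.and ?_ ?_))))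
  · exact UDef.forall_fin fun i => UDef.forall_fin fun j => UDef.forall_fin fun l =>
      UDef.forall_fin fun t => UDef.eq (hc i j l t) (hc j i l t)
  · exact UDef.forall_fin fun j => UDef.forall_fin fun l => UDef.forall_fin fun t =>
      UDef.eq (hc s.zero j l t) (UTerm.ite _ UTerm.one UTerm.zero)
  · exact UDef.forall_fin fun i => UDef.forall_fin fun j => UDef.forall_fin fun l =>
      UDef.forall_fin fun t => UDef.imp_const _ (UDef.eq (hc i j l t) UTerm.zero)
  · exact UDef.forall_fin fun i => UDef.forall_fin fun j =>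
      UDef.forall_fin fun t => UDef.imp_const _ (UDef.ne (hc i j (s.add i j) t) UTerm.zero)
  · refine UDef.forall_scalar ?_
    exact UDef.forall_fin fun i => UDef.forall_fin fun j => UDef.forall_fin fun r =>
      UDef.forall_fin fun u => UDef.eq
        (UTerm.fsum fun l => (uterm_ev hc.weaken uterm_dec i j l).mul
          (uterm_ev hc.weaken uterm_dec l r u))
        (UTerm.fsum fun l => (uterm_ev hc.weaken uterm_dec j r l).mul
          (uterm_ev hc.weaken uterm_dec i l u))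
  · -- ξ
    refine UDef.forall_scalar ?_
    -- η
    refine UDef.forall_vec ?_
    have hc2 := hc.weaken (β := Unit) |>.weaken (β := Fin s.m)
    have hξ2 := (uterm_dec (α := α)).weaken (β := Fin s.m)
    have hη2 := uvec_dec (α := α ⊕ Unit) (ι := Fin s.m)
    refine UDef.imp (udef_isPoint hc2 hξ2 hη2) ?_
    -- u
    refine UDef.forall_scalar ?_
    -- u'
    refine UDef.forall_scalar ?_
    -- w
    refine UDef.forall_vec ?_
    -- w'
    refine UDef.forall_vec ?_
    have hc6 := hc2.weaken (β := Unit) |>.weaken (β := Unit) |>.weaken (β := Fin s.m)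
      |>.weaken (β := Fin s.m)
    have hξ6 := hξ2.weaken (β := Unit) |>.weaken (β := Unit) |>.weaken (β := Fin s.m)
      |>.weaken (β := Fin s.m)
    have hη6 := hη2.weaken (β := Unit) |>.weaken (β := Unit) |>.weaken (β := Fin s.m)
      |>.weaken (β := Fin s.m)
    have hu6 := (uterm_dec (α := (α ⊕ Unit) ⊕ Fin s.m)).weaken (β := Unit)
      |>.weaken (β := Fin s.m) |>.weaken (β := Fin s.m)
    have hu'6 := (uterm_dec (α := ((α ⊕ Unit) ⊕ Fin s.m) ⊕ Unit)).weaken (β := Fin s.m)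
      |>.weaken (β := Fin s.m)
    have hw6 := (uvec_dec (α := (((α ⊕ Unit) ⊕ Fin s.m) ⊕ Unit) ⊕ Unit)
      (ι := Fin s.m)).weaken (β := Fin s.m)
    have hw'6 := uvec_dec (α := ((((α ⊕ Unit) ⊕ Fin s.m) ⊕ Unit) ⊕ Unit) ⊕ Fin s.m)
      (ι := Fin s.m)
    refine UDef.imp (udef_isTangent hc6 hξ6 hη6 hu6 hw6) ?_
    refine UDef.imp (udef_isTangent hc6 hξ6 hη6 hu'6 hw'6) ?_
    -- α, β
    refine UDef.exists_scalar ?_
    refine UDef.exists_scalar ?_
    have ha := (uterm_dec (α := (((((α ⊕ Unit) ⊕ Fin s.m) ⊕ Unit) ⊕ Unit) ⊕ Fin s.m)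
      ⊕ Fin s.m)).weaken (β := Unit)
    have hb := uterm_dec (α := ((((((α ⊕ Unit) ⊕ Fin s.m) ⊕ Unit) ⊕ Unit) ⊕ Fin s.m)
      ⊕ Fin s.m) ⊕ Unit)
    have hu8 := hu6.weaken (β := Unit) |>.weaken (β := Unit)
    have hu'8 := hu'6.weaken (β := Unit) |>.weaken (β := Unit)
    have hw8 := hw6.weaken (β := Unit) |>.weaken (β := Unit)
    have hw'8 := hw'6.weaken (β := Unit) |>.weaken (β := Unit)
    refine UDef.and (UDef.or (UDef.ne ha UTerm.zero) (UDef.ne hb UTerm.zero)) (UDef.and ?_ ?_)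
    · exact UDef.eq ((ha.mul hu8).add (hb.mul hu'8)) UTerm.zero
    · exact UDef.forall_fin fun j => UDef.eq ((ha.mul (hw8 j)).add (hb.mul (hw'8 j))) UTerm.zero

end Fermat.Agent.S27.FO
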